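import Fermat.Agent.S27.LocalHom

set_option autoImplicit false

open Filter Topology Metric Set

namespace Fermat.Agent.S27.LG

variable {E : Type*} [NormedAddCommGroup E] [NormedSpace ℝ E] [FiniteDimensional ℝ E]

variable {G : Type*} [AddCommGroup G]

omit [FiniteDimensional ℝ E] in
/-- (LG-B1) a local homomorphism on a ball extends to a homomorphism. -/
theorem exists_hom_of_local (e : E → G) (r : ℝ) (hr : 0 < r)
    (hadd : ∀ u v : E, ‖u‖ < r → ‖v‖ < r → ‖u + v‖ < r → e (u + v) = e u + e v) :
    ∃ φ : E →+ G, ∀ u : E, ‖u‖ < r → φ u = e u :=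
  Fermat.Agent.S27.exists_hom_of_isLocalHom hr hadd

end Fermat.Agent.S27.LG
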