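import Fermat.Agent.S27.LocalHom

set_option autoImplicit false

open Filter Topology Metric Set

namespace Fermat.Agent.S27.LG

variable {E : Type*} [NormedAddCommGroup E] [NormedSpace ℝ E] [FiniteDimensional ℝ E]

variable {G : Type*} [AddCommGroup G]

/-- (LG-B2) quotient of `E` by a discrete cocompact subgroup has `n ^ dim` points of `n`-torsion. -/
theorem card_torsion_of_hom (φ : E →+ G) (hsurj : Function.Surjective φ)
    (r : ℝ) (hr : 0 < r) (hker : ∀ u : E, ‖u‖ < r → φ u = 0 → u = 0)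
    (R : ℝ) (hcpt : ∀ γ : G, ∃ u : E, ‖u‖ ≤ R ∧ φ u = γ) (n : ℕ) (hn : 0 < n) :
    Nat.card {γ : G // n • γ = 0} = n ^ Module.finrank ℝ E := by
  refine Fermat.Agent.S27.card_torsion_of_lattice φ hsurj
    (Fermat.Agent.S27.discreteTopology_ker_of_ball φ hr hker) (closedBall (0 : E) R)
    (isCompact_closedBall _ _) ?_ n hn
  intro x
  obtain ⟨u, hu, hφ⟩ := hcpt (φ x)
  exact ⟨u, by simpa using hu, hφ.symm⟩

end Fermat.Agent.S27.LG
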