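import Mathlib

set_option autoImplicit false

open Filter Topology Metric Set

namespace Fermat.Agent.S27.LG

variable {E : Type*} [NormedAddCommGroup E] [NormedSpace ℝ E] [FiniteDimensional ℝ E]

/-- (LG-H) local inverse of the doubling map. -/
theorem exists_halving (D : E → E) (hD : ContDiffAt ℝ 2 D 0) (hD0 : D 0 = 0)
    (hD' : HasFDerivAt D ((2 : ℝ) • ContinuousLinearMap.id ℝ E) 0) :
    ∃ h : E → E, ContDiffAt ℝ 2 h 0 ∧ h 0 = 0 ∧
      HasFDerivAt h ((1 / 2 : ℝ) • ContinuousLinearMap.id ℝ E) 0 ∧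
      (∀ᶠ x in 𝓝 (0 : E), D (h x) = x) ∧ (∀ᶠ x in 𝓝 (0 : E), h (D x) = x) := by
  have : CompleteSpace E := FiniteDimensional.complete ℝ E
  let f' : E ≃L[ℝ] E := ContinuousLinearEquiv.smulLeft (Units.mk0 (2 : ℝ) two_ne_zero)
  have hf' : (f' : E →L[ℝ] E) = (2 : ℝ) • ContinuousLinearMap.id ℝ E := by
    ext x; rfl
  have hf'symm : (f'.symm : E →L[ℝ] E) = (1 / 2 : ℝ) • ContinuousLinearMap.id ℝ E := by
    ext x
    apply f'.injective
    have h1 : f' (f'.symm x) = x := f'.apply_symm_apply x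
    have h2 : ∀ y : E, f' y = (2 : ℝ) • y := fun y => rfl
    simp only [ContinuousLinearEquiv.coe_coe, h1, _root_.smul_apply,
      ContinuousLinearMap.id_apply, h2, smul_smul]
    norm_num
  have hDf : HasFDerivAt D (f' : E →L[ℝ] E) 0 := by rw [hf']; exact hD'
  have hs : HasStrictFDerivAt D (f' : E →L[ℝ] E) 0 := hD.hasStrictFDerivAt' hDf (by norm_num)
  refine ⟨hD.localInverse hDf (by norm_num), ?_, ?_, ?_, ?_, ?_⟩
  · have := hD.to_localInverse hDf (by norm_num)
    rwa [hD0] at this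
  · have := hD.localInverse_apply_image hDf (by norm_num)
    rwa [hD0] at this
  · have := hs.to_localInverse.hasFDerivAt
    rw [hD0, hf'symm] at this
    exact this
  · have := hs.eventually_right_inverse
    rwa [hD0] at this
  · exact hs.eventually_left_inverse

end Fermat.Agent.S27.LG
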