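import Mathlib

set_option autoImplicit false

open Filter Topology Metric Set

namespace Fermat.Agent.S27.LG

variable {E : Type*} [NormedAddCommGroup E] [NormedSpace ℝ E] [FiniteDimensional ℝ E]

omit [FiniteDimensional ℝ E] in
/-- A `C^2` map with derivative `φ` at `0` satisfies a quadratic mean value estimate near `0`. -/
theorem koenigs_mean_value (h : E → E) (hh : ContDiffAt ℝ 2 h 0) (φ : E →L[ℝ] E)
    (hd : HasFDerivAt h φ 0) :
    ∃ (K ρ₀ : ℝ), 0 ≤ K ∧ 0 < ρ₀ ∧ ∀ R : ℝ, R < ρ₀ → ∀ x y : E, ‖x‖ ≤ R → ‖y‖ ≤ R →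
      ‖h y - h x - φ (y - x)‖ ≤ K * R * ‖y - x‖ := by
  have hfd : ContDiffAt ℝ 1 (fderiv ℝ h) 0 := hh.fderiv_right (by norm_num)
  obtain ⟨K, t, ht, hK⟩ := hfd.exists_lipschitzOnWith
  have hdiff : ∀ᶠ y in 𝓝 (0 : E), DifferentiableAt ℝ h y := by
    filter_upwards [hh.eventually (by simp)] with y hy using hy.differentiableAt (by norm_num)
  obtain ⟨ρ₀, hρ₀, hball⟩ := Metric.mem_nhds_iff.mp (Filter.inter_mem ht hdiff)
  have hφ : fderiv ℝ h 0 = φ := hd.fderiv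
  refine ⟨K, ρ₀, K.2, hρ₀, fun R hR x y hx hy => ?_⟩
  have hx' : x ∈ closedBall (0 : E) R := by simpa using hx
  have hy' : y ∈ closedBall (0 : E) R := by simpa using hy
  refine Convex.norm_image_sub_le_of_norm_fderiv_le' (𝕜 := ℝ) (s := closedBall 0 R) ?_ ?_
    (convex_closedBall 0 R) hx' hy'
  · intro z hz
    exact (hball (closedBall_subset_ball hR hz)).2
  · intro z hz
    have hz' := (hball (closedBall_subset_ball hR hz)).1
    have h0' : (0 : E) ∈ t := (hball (mem_ball_self hρ₀)).1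
    have h1 := hK.dist_le_mul z hz' 0 h0'
    rw [dist_eq_norm, hφ, dist_zero_right] at h1
    have h2 : ‖z‖ ≤ R := by simpa using hz
    calc ‖fderiv ℝ h z - φ‖ ≤ K * ‖z‖ := h1
      _ ≤ K * R := mul_le_mul_of_nonneg_left h2 K.2

/-- (LG-K) Koenigs linearisation of a contraction tangent to `1/2`. -/
theorem exists_linearization (h : E → E) (hh : ContDiffAt ℝ 2 h 0) (h0 : h 0 = 0)
    (hd : HasFDerivAt h ((1 / 2 : ℝ) • ContinuousLinearMap.id ℝ E) 0) :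
    ∃ (L : E → E) (ρ : ℝ), 0 < ρ ∧
      (∀ x, ‖x‖ < ρ → ‖h x‖ ≤ 2 / 3 * ‖x‖) ∧
      (∀ x, ‖x‖ < ρ → Tendsto (fun m : ℕ => (2 : ℝ) ^ m • h^[m] x) atTop (𝓝 (L x))) ∧
      ApproximatesLinearOn L (ContinuousLinearMap.id ℝ E) (ball 0 ρ) (1 / 2) := by
  obtain ⟨K, ρ₀, hK0, hρ₀, hA⟩ := koenigs_mean_value h hh _ hd
  -- reformulate the estimate
  have hB : ∀ R : ℝ, R < ρ₀ → ∀ x y : E, ‖x‖ ≤ R → ‖y‖ ≤ R →
      ‖h x - h y - (1 / 2 : ℝ) • (x - y)‖ ≤ K * R * ‖x - y‖ := by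
    intro R hR x y hx hy
    simpa using hA R hR y x hy hx
  -- choice of the radius
  set ρ : ℝ := min (ρ₀ / 2) (1 / (36 * (K + 1))) with hρdef
  have hρpos : 0 < ρ := lt_min (by linarith) (by positivity)
  have hρlt : ρ < ρ₀ := lt_of_le_of_lt (min_le_left _ _) (by linarith)
  have hKρ : K * ρ ≤ 1 / 36 := by
    have h1 : ρ ≤ 1 / (36 * (K + 1)) := min_le_right _ _
    calc K * ρ ≤ K * (1 / (36 * (K + 1))) := mul_le_mul_of_nonneg_left h1 hK0
      _ = K / (K + 1) * (1 / 36) := by field_simp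
      _ ≤ 1 * (1 / 36) := by
          apply mul_le_mul_of_nonneg_right _ (by norm_num)
          rw [div_le_one (by linarith)]; linarith
      _ = 1 / 36 := by ring
  -- Lipschitz estimate for `h` on small balls
  have hC : ∀ R : ℝ, R ≤ ρ → ∀ x y : E, ‖x‖ ≤ R → ‖y‖ ≤ R → ‖h x - h y‖ ≤ 2 / 3 * ‖x - y‖ := by
    intro R hR x y hx hy
    have h1 := hB R (lt_of_le_of_lt hR hρlt) x y hx hy
    have h2 : ‖h x - h y‖ ≤ ‖h x - h y - (1 / 2 : ℝ) • (x - y)‖ + ‖(1 / 2 : ℝ) • (x - y)‖ := by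
      have := norm_add_le (h x - h y - (1 / 2 : ℝ) • (x - y)) ((1 / 2 : ℝ) • (x - y))
      simpa using this
    rw [norm_smul] at h2
    have h3 : K * R ≤ 1 / 36 := le_trans (mul_le_mul_of_nonneg_left hR hK0) hKρ
    have h4 : K * R * ‖x - y‖ ≤ 1 / 36 * ‖x - y‖ := mul_le_mul_of_nonneg_right h3 (norm_nonneg _)
    have h5 : ‖(1 / 2 : ℝ)‖ = 1 / 2 := by norm_num
    rw [h5] at h2
    have := norm_nonneg (x - y)
    linarith
  have hcontr : ∀ x, ‖x‖ < ρ → ‖h x‖ ≤ 2 / 3 * ‖x‖ := by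
    intro x hx
    have := hC ‖x‖ hx.le x 0 le_rfl (by simp)
    simpa [h0] using this
  -- iterates stay small
  have hiter : ∀ x, ‖x‖ < ρ → ∀ m : ℕ, ‖h^[m] x‖ ≤ (2 / 3) ^ m * ‖x‖ := by
    intro x hx m
    induction m with
    | zero => simp
    | succ m ih =>
      have h1 : (2 / 3 : ℝ) ^ m * ‖x‖ ≤ ‖x‖ := by
        have : (2 / 3 : ℝ) ^ m ≤ 1 := pow_le_one₀ (by norm_num) (by norm_num)
        nlinarith [norm_nonneg x]
      have h2 := hcontr (h^[m] x) (lt_of_le_of_lt (ih.trans h1) hx)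
      rw [Function.iterate_succ_apply', pow_succ]
      nlinarith
  have hiterρ : ∀ x, ‖x‖ < ρ → ∀ m : ℕ, ‖h^[m] x‖ ≤ (2 / 3) ^ m * ρ := by
    intro x hx m
    refine (hiter x hx m).trans ?_
    exact mul_le_mul_of_nonneg_left hx.le (by positivity)
  have hpowρ : ∀ m : ℕ, (2 / 3 : ℝ) ^ m * ρ ≤ ρ := by
    intro m
    have : (2 / 3 : ℝ) ^ m ≤ 1 := pow_le_one₀ (by norm_num) (by norm_num)
    nlinarith
  -- differences of iterates
  have hdiffit : ∀ x y, ‖x‖ < ρ → ‖y‖ < ρ → ∀ m : ℕ,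
      ‖h^[m] x - h^[m] y‖ ≤ (2 / 3) ^ m * ‖x - y‖ := by
    intro x y hx hy m
    induction m with
    | zero => simp
    | succ m ih =>
      have h2 := hC _ (hpowρ m) (h^[m] x) (h^[m] y) (hiterρ x hx m) (hiterρ y hy m)
      rw [Function.iterate_succ_apply', Function.iterate_succ_apply', pow_succ]
      nlinarith
  have hstep : ∀ x y, ‖x‖ < ρ → ‖y‖ < ρ → ∀ m : ℕ,
      ‖(2 : ℝ) ^ (m + 1) • (h^[m + 1] x - h^[m + 1] y) - (2 : ℝ) ^ m • (h^[m] x - h^[m] y)‖ ≤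
        2 * (K * ρ) * (8 / 9) ^ m * ‖x - y‖ := by
    intro x y hx hy m
    have h1 := hB _ (lt_of_le_of_lt (hpowρ m) hρlt) (h^[m] x) (h^[m] y) (hiterρ x hx m)
      (hiterρ y hy m)
    have h2 := hdiffit x y hx hy m
    have heq : (2 : ℝ) ^ (m + 1) • (h^[m + 1] x - h^[m + 1] y) - (2 : ℝ) ^ m • (h^[m] x - h^[m] y)
        = (2 : ℝ) ^ (m + 1) • (h (h^[m] x) - h (h^[m] y) - (1 / 2 : ℝ) • (h^[m] x - h^[m] y)) := by
      rw [Function.iterate_succ_apply', Function.iterate_succ_apply', smul_sub _ (_ - _) (_ • _),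
        smul_smul, pow_succ]
      congr 2
      ring
    rw [heq, norm_smul, Real.norm_of_nonneg (by positivity)]
    have h3 : K * ((2 / 3) ^ m * ρ) * ‖h^[m] x - h^[m] y‖ ≤
        K * ((2 / 3) ^ m * ρ) * ((2 / 3) ^ m * ‖x - y‖) :=
      mul_le_mul_of_nonneg_left h2 (by positivity)
    have h4 : (2 : ℝ) ^ (m + 1) * (K * ((2 / 3) ^ m * ρ) * ((2 / 3) ^ m * ‖x - y‖)) =
        2 * (K * ρ) * (8 / 9) ^ m * ‖x - y‖ := by
      have : (8 / 9 : ℝ) ^ m = 2 ^ m * (2 / 3) ^ m * (2 / 3) ^ m := by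
        rw [← mul_pow, ← mul_pow]; norm_num
      rw [this, pow_succ]; ring
    calc (2 : ℝ) ^ (m + 1) * ‖h (h^[m] x) - h (h^[m] y) - (1 / 2 : ℝ) • (h^[m] x - h^[m] y)‖
        ≤ (2 : ℝ) ^ (m + 1) * (K * ((2 / 3) ^ m * ρ) * ((2 / 3) ^ m * ‖x - y‖)) :=
          mul_le_mul_of_nonneg_left (h1.trans h3) (by positivity)
      _ = _ := h4
  have hzero : ∀ m : ℕ, h^[m] 0 = 0 := by
    intro m
    induction m with
    | zero => rfl
    | succ m ih => rw [Function.iterate_succ_apply', ih, h0]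
  -- convergence
  have hcauchy : ∀ x, ‖x‖ < ρ → CauchySeq (fun m : ℕ => (2 : ℝ) ^ m • h^[m] x) := by
    intro x hx
    refine cauchySeq_of_le_geometric (8 / 9) (2 * (K * ρ) * ‖x‖) (by norm_num) (fun m => ?_)
    have := hstep x 0 hx (by simpa using hρpos) m
    simp only [hzero, sub_zero] at this
    rw [dist_comm, dist_eq_norm]
    linarith
  refine ⟨fun x => limUnder atTop (fun m : ℕ => (2 : ℝ) ^ m • h^[m] x), ρ, hρpos, hcontr, ?_, ?_⟩
  · intro x hx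
    exact (hcauchy x hx).tendsto_limUnder
  · intro x hx y hy
    have hx' : ‖x‖ < ρ := by simpa using hx
    have hy' : ‖y‖ < ρ := by simpa using hy
    have htx := (hcauchy x hx').tendsto_limUnder
    have hty := (hcauchy y hy').tendsto_limUnder
    -- telescoping bound
    have htel : ∀ m : ℕ, ‖(2 : ℝ) ^ m • (h^[m] x - h^[m] y) - (x - y)‖ ≤
        18 * (K * ρ) * (1 - (8 / 9) ^ m) * ‖x - y‖ := by
      intro m
      induction m with
      | zero => simp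
      | succ m ih =>
        have h1 := hstep x y hx' hy' m
        have h2 : (2 : ℝ) ^ (m + 1) • (h^[m + 1] x - h^[m + 1] y) - (x - y) =
            ((2 : ℝ) ^ (m + 1) • (h^[m + 1] x - h^[m + 1] y) - (2 : ℝ) ^ m • (h^[m] x - h^[m] y)) +
            ((2 : ℝ) ^ m • (h^[m] x - h^[m] y) - (x - y)) := by abel
        rw [h2]
        refine (norm_add_le _ _).trans ?_
        have h3 : 2 * (K * ρ) * (8 / 9) ^ m * ‖x - y‖ + 18 * (K * ρ) * (1 - (8 / 9) ^ m) * ‖x - y‖ =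
            18 * (K * ρ) * (1 - (8 / 9) ^ (m + 1)) * ‖x - y‖ := by
          rw [pow_succ]; ring
        linarith
    have hbd : ∀ m : ℕ, ‖(2 : ℝ) ^ m • h^[m] x - (2 : ℝ) ^ m • h^[m] y - (x - y)‖ ≤
        1 / 2 * ‖x - y‖ := by
      intro m
      have h1 := htel m
      rw [smul_sub] at h1
      refine h1.trans ?_
      have h2 : (0 : ℝ) ≤ (8 / 9) ^ m := by positivity
      have h3 : (8 / 9 : ℝ) ^ m ≤ 1 := pow_le_one₀ (by norm_num) (by norm_num)
      have h4 : 18 * (K * ρ) * (1 - (8 / 9) ^ m) ≤ 1 / 2 := by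
        have h5 : 0 ≤ K * ρ := mul_nonneg hK0 hρpos.le
        nlinarith
      exact mul_le_mul_of_nonneg_right h4 (norm_nonneg _)
    have hlim : Tendsto (fun m : ℕ => ‖(2 : ℝ) ^ m • h^[m] x - (2 : ℝ) ^ m • h^[m] y - (x - y)‖)
        atTop (𝓝 ‖limUnder atTop (fun m : ℕ => (2 : ℝ) ^ m • h^[m] x) -
          limUnder atTop (fun m : ℕ => (2 : ℝ) ^ m • h^[m] y) - (x - y)‖) :=
      ((htx.sub hty).sub_const _).norm
    have := le_of_tendsto hlim (Eventually.of_forall hbd)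
    simpa using this

end Fermat.Agent.S27.LG
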