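import Mathlib

set_option autoImplicit false
set_option linter.unusedSectionVars false

open Filter Topology Metric Set

namespace Fermat.Agent.S27.LG

variable {E : Type*} [NormedAddCommGroup E] [NormedSpace ℝ E] [FiniteDimensional ℝ E]

/-- (LG-M1) -/
theorem mu_hasFDerivAt (μ : E × E → E) (hμ : ContDiffAt ℝ 2 μ (0, 0))
    (h1 : ∀ᶠ x in 𝓝 (0 : E), μ (x, 0) = x) (h2 : ∀ᶠ y in 𝓝 (0 : E), μ (0, y) = y) :
    HasFDerivAt μ ((ContinuousLinearMap.id ℝ E).coprod (ContinuousLinearMap.id ℝ E)) (0, 0) := by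
  have hd : DifferentiableAt ℝ μ (0, 0) := hμ.differentiableAt (by norm_num)
  have hA := hd.hasFDerivAt
  set A := fderiv ℝ μ (0, 0) with hAdef
  have hl : A.comp (ContinuousLinearMap.inl ℝ E E) = ContinuousLinearMap.id ℝ E := by
    have e1 : HasFDerivAt (fun x : E => μ (x, 0)) (A.comp (ContinuousLinearMap.inl ℝ E E)) 0 :=
      HasFDerivAt.comp (f := fun x : E => (x, (0 : E))) (0 : E) hA (hasFDerivAt_prodMk_left 0 0)
    have e2 : HasFDerivAt (fun x : E => μ (x, 0)) (ContinuousLinearMap.id ℝ E) 0 :=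
      (hasFDerivAt_id (0 : E)).congr_of_eventuallyEq h1
    exact e1.unique e2
  have hr : A.comp (ContinuousLinearMap.inr ℝ E E) = ContinuousLinearMap.id ℝ E := by
    have e1 : HasFDerivAt (fun y : E => μ (0, y)) (A.comp (ContinuousLinearMap.inr ℝ E E)) 0 :=
      HasFDerivAt.comp (f := fun y : E => ((0 : E), y)) (0 : E) hA (hasFDerivAt_prodMk_right 0 0)
    have e2 : HasFDerivAt (fun y : E => μ (0, y)) (ContinuousLinearMap.id ℝ E) 0 :=
      (hasFDerivAt_id (0 : E)).congr_of_eventuallyEq h2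
    exact e1.unique e2
  have : A = (ContinuousLinearMap.id ℝ E).coprod (ContinuousLinearMap.id ℝ E) := by
    have hl' : ∀ v : E, A (v, 0) = v := fun v => by
      have := congrArg (fun f : E →L[ℝ] E => f v) hl
      simpa using this
    have hr' : ∀ v : E, A (0, v) = v := fun v => by
      have := congrArg (fun f : E →L[ℝ] E => f v) hr
      simpa using this
    ext p <;> simp [hl', hr']
  rwa [this] at hA

/-- (LG-M2) -/
theorem mu_estimate (μ : E × E → E) (hμ : ContDiffAt ℝ 2 μ (0, 0))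
    (h1 : ∀ᶠ x in 𝓝 (0 : E), μ (x, 0) = x) (h2 : ∀ᶠ y in 𝓝 (0 : E), μ (0, y) = y) :
    ∃ C : ℝ, ∃ ρ > 0, ∀ x y : E, ‖x‖ < ρ → ‖y‖ < ρ → ‖μ (x, y) - x - y‖ ≤ C * ‖x‖ * ‖y‖ := by
  -- the derivative is Lipschitz near the origin
  have hfd : ContDiffAt ℝ 1 (fderiv ℝ μ) (0, 0) := hμ.fderiv_right (m := 1) (by norm_num)
  obtain ⟨K, t, ht, hK⟩ := hfd.exists_lipschitzOnWith
  have hev : ∀ᶠ q in 𝓝 ((0 : E), (0 : E)), ContDiffAt ℝ 2 μ q := hμ.eventually (by simp)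
  obtain ⟨ρ₁, hρ₁, hb₁⟩ := Metric.mem_nhds_iff.mp (Filter.inter_mem ht hev)
  obtain ⟨ρ₂, hρ₂, hb₂⟩ := Metric.mem_nhds_iff.mp (Filter.inter_mem h1 h2)
  refine ⟨K, min ρ₁ ρ₂, lt_min hρ₁ hρ₂, ?_⟩
  intro x y hx hy
  have hx1 : ‖x‖ < ρ₁ := lt_of_lt_of_le hx (min_le_left _ _)
  have hy1 : ‖y‖ < ρ₁ := lt_of_lt_of_le hy (min_le_left _ _)
  have hx2 : ‖x‖ < ρ₂ := lt_of_lt_of_le hx (min_le_right _ _)
  have hy2 : ‖y‖ < ρ₂ := lt_of_lt_of_le hy (min_le_right _ _)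
  have hmem : ∀ a b : E, ‖a‖ < ρ₁ → ‖b‖ < ρ₁ → (a, b) ∈ t ∧ ContDiffAt ℝ 2 μ (a, b) := by
    intro a b ha hb
    apply hb₁
    rw [mem_ball_iff_norm, Prod.mk_zero_zero, sub_zero, Prod.norm_def]
    exact max_lt ha hb
  have hμx : μ (x, 0) = x := (hb₂ (by simpa using hx2)).1
  have hμy : μ (0, y) = y := (hb₂ (by simpa using hy2)).2
  have hμ0 : μ (0, 0) = 0 := h1.self_of_nhds
  -- the auxiliary function
  let ψ : E → E := fun a => μ (a, y) - μ (a, 0)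
  let ψ' : E → E →L[ℝ] E := fun a =>
    (fderiv ℝ μ (a, y) - fderiv ℝ μ (a, 0)).comp (ContinuousLinearMap.inl ℝ E E)
  have hψ : ∀ a ∈ ball (0 : E) ρ₁, HasFDerivWithinAt ψ (ψ' a) (ball (0 : E) ρ₁) a := by
    intro a ha
    have ha' : ‖a‖ < ρ₁ := by simpa using ha
    have d1 : HasFDerivAt μ (fderiv ℝ μ (a, y)) (a, y) :=
      ((hmem a y ha' hy1).2.differentiableAt (by norm_num)).hasFDerivAt
    have d2 : HasFDerivAt μ (fderiv ℝ μ (a, 0)) (a, 0) :=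
      ((hmem a 0 ha' (by simpa using hρ₁)).2.differentiableAt (by norm_num)).hasFDerivAt
    have e1 : HasFDerivAt (fun a : E => μ (a, y))
        ((fderiv ℝ μ (a, y)).comp (ContinuousLinearMap.inl ℝ E E)) a :=
      HasFDerivAt.comp (f := fun a : E => (a, y)) a d1 (hasFDerivAt_prodMk_left a y)
    have e2 : HasFDerivAt (fun a : E => μ (a, 0))
        ((fderiv ℝ μ (a, 0)).comp (ContinuousLinearMap.inl ℝ E E)) a :=
      HasFDerivAt.comp (f := fun a : E => (a, (0 : E))) a d2 (hasFDerivAt_prodMk_left a 0)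
    have := (e1.sub e2).hasFDerivWithinAt (s := ball (0 : E) ρ₁)
    rw [← ContinuousLinearMap.sub_comp] at this
    exact this
  have hbound : ∀ a ∈ ball (0 : E) ρ₁, ‖ψ' a‖ ≤ K * ‖y‖ := by
    intro a ha
    have ha' : ‖a‖ < ρ₁ := by simpa using ha
    have hl := hK.norm_sub_le (hmem a y ha' hy1).1 (hmem a 0 ha' (by simpa using hρ₁)).1
    have hn : ‖((a, y) : E × E) - (a, 0)‖ = ‖y‖ := by
      simp [Prod.norm_def]
    rw [hn] at hl
    refine ContinuousLinearMap.opNorm_le_bound _ (by positivity) fun v => ?_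
    calc ‖ψ' a v‖ = ‖(fderiv ℝ μ (a, y) - fderiv ℝ μ (a, 0)) (v, 0)‖ := by simp [ψ']
      _ ≤ ‖fderiv ℝ μ (a, y) - fderiv ℝ μ (a, 0)‖ * ‖((v, 0) : E × E)‖ :=
          ContinuousLinearMap.le_opNorm _ _
      _ ≤ (K * ‖y‖) * ‖v‖ := by
          have : ‖((v, 0) : E × E)‖ = ‖v‖ := by simp [Prod.norm_def]
          rw [this]; gcongr
  have hmv := Convex.norm_image_sub_le_of_norm_hasFDerivWithin_le hψ hbound (convex_ball 0 ρ₁)
    (mem_ball_self hρ₁) (show x ∈ ball (0 : E) ρ₁ by simpa using hx1)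
  have hfin : ψ x - ψ 0 = μ (x, y) - x - y := by
    simp only [ψ, hμx, hμy, hμ0]; abel
  rw [hfin, sub_zero] at hmv
  calc ‖μ (x, y) - x - y‖ ≤ K * ‖y‖ * ‖x‖ := hmv
    _ = K * ‖x‖ * ‖y‖ := by ring

end Fermat.Agent.S27.LG
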