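import Mathlib
import Fermat.Agent.S27.LG.Koenigs
import Fermat.Agent.S27.LG.Mu
import Fermat.Agent.S27.LG.Halving

set_option autoImplicit false

open Filter Topology Metric Set

namespace Fermat.Agent.S27.LG

variable {E : Type*} [NormedAddCommGroup E] [NormedSpace ℝ E] [FiniteDimensional ℝ E]

variable {G : Type*} [AddCommGroup G]

omit [FiniteDimensional ℝ E] in
/-- iterates of a `2/3`-contraction on a ball. -/
theorem norm_iterate_le (h : E → E) (ρ : ℝ) (hh : ∀ x, ‖x‖ < ρ → ‖h x‖ ≤ 2 / 3 * ‖x‖) (x : E)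
    (hx : ‖x‖ < ρ) (m : ℕ) : ‖h^[m] x‖ ≤ (2 / 3 : ℝ) ^ m * ‖x‖ := by
  induction m with
  | zero => simp
  | succ m ih =>
    have h1 : (2 / 3 : ℝ) ^ m * ‖x‖ ≤ ‖x‖ := by
      have : (2 / 3 : ℝ) ^ m ≤ 1 := pow_le_one₀ (by norm_num) (by norm_num)
      nlinarith [norm_nonneg x]
    rw [Function.iterate_succ_apply']
    calc ‖h (h^[m] x)‖ ≤ 2 / 3 * ‖h^[m] x‖ := hh _ (lt_of_le_of_lt (ih.trans h1) hx)
      _ ≤ 2 / 3 * ((2 / 3 : ℝ) ^ m * ‖x‖) := by gcongr
      _ = (2 / 3 : ℝ) ^ (m + 1) * ‖x‖ := by ring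

omit [FiniteDimensional ℝ E] in
theorem norm_iterate_lt (h : E → E) (ρ : ℝ) (hh : ∀ x, ‖x‖ < ρ → ‖h x‖ ≤ 2 / 3 * ‖x‖) (x : E)
    (hx : ‖x‖ < ρ) {δ : ℝ} (hxδ : ‖x‖ < δ) (m : ℕ) : ‖h^[m] x‖ < δ := by
  have h1 : (2 / 3 : ℝ) ^ m * ‖x‖ ≤ ‖x‖ := by
    have : (2 / 3 : ℝ) ^ m ≤ 1 := pow_le_one₀ (by norm_num) (by norm_num)
    nlinarith [norm_nonneg x]
  exact lt_of_le_of_lt ((norm_iterate_le h ρ hh x hx m).trans h1) hxδ

omit [FiniteDimensional ℝ E] in
/-- extraction of a uniform radius from an eventual statement on pairs. -/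
theorem exists_radius_of_eventually_prod {P : E × E → Prop}
    (hP : ∀ᶠ p in 𝓝 ((0 : E), (0 : E)), P p) :
    ∃ δ > 0, ∀ x y : E, ‖x‖ < δ → ‖y‖ < δ → P (x, y) := by
  obtain ⟨δ, hδ, h⟩ := Metric.eventually_nhds_iff_ball.mp hP
  refine ⟨δ, hδ, fun x y hx hy => h _ ?_⟩
  rw [mem_ball, Prod.dist_eq]
  simpa using ⟨hx, hy⟩

/-- (LG-A) the local homomorphism. Uses LG-K, LG-M1, LG-M2, LG-H. -/
theorem exists_local_hom (c : E → G) (μ : E × E → E) (hc0 : c 0 = 0)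
    (hinj : ∃ U ∈ 𝓝 (0 : E), InjOn c U)
    (hμ : ContDiffAt ℝ 2 μ (0, 0)) (hμ0 : μ (0, 0) = 0)
    (hadd : ∀ᶠ p in 𝓝 ((0 : E), (0 : E)), c (μ p) = c p.1 + c p.2) :
    ∃ (e : E → G) (r : ℝ), 0 < r ∧
      (∀ u v : E, ‖u‖ < r → ‖v‖ < r → ‖u + v‖ < r → e (u + v) = e u + e v) ∧
      InjOn e (ball 0 r) ∧
      (∃ V ∈ 𝓝 (0 : E), c '' V ⊆ e '' ball 0 r) := by
  classical
  obtain ⟨U, hU, hcU⟩ := hinj
  have hμc : Tendsto μ (𝓝 ((0 : E), (0 : E))) (𝓝 0) := by
    have := hμ.continuousAt.tendsto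
    rwa [hμ0] at this
  have hUe : ∀ᶠ x in 𝓝 (0 : E), x ∈ U := hU
  -- Step 1 : `μ (x, 0) = x`, `μ (0, y) = y`
  have t1 : Tendsto (fun x : E => (x, (0 : E))) (𝓝 0) (𝓝 ((0 : E), (0 : E))) :=
    (continuous_id.prodMk continuous_const).tendsto' _ _ rfl
  have t2 : Tendsto (fun y : E => ((0 : E), y)) (𝓝 0) (𝓝 ((0 : E), (0 : E))) :=
    (continuous_const.prodMk continuous_id).tendsto' _ _ rfl
  have h1 : ∀ᶠ x in 𝓝 (0 : E), μ (x, 0) = x := by
    filter_upwards [t1.eventually hadd, (hμc.comp t1).eventually hUe, hUe] with x ha hb hx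
    apply hcU hb hx
    show c (μ (x, 0)) = c x
    rw [ha]; simp [hc0]
  have h2 : ∀ᶠ y in 𝓝 (0 : E), μ (0, y) = y := by
    filter_upwards [t2.eventually hadd, (hμc.comp t2).eventually hUe, hUe] with y ha hb hy
    apply hcU hb hy
    show c (μ (0, y)) = c y
    rw [ha]; simp [hc0]
  -- Step 2 : the doubling map
  have hμ' := mu_hasFDerivAt μ hμ h1 h2
  set D : E → E := fun x => μ (x, x) with hDdef
  have tD : Tendsto (fun x : E => (x, x)) (𝓝 0) (𝓝 ((0 : E), (0 : E))) :=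
    (continuous_id.prodMk continuous_id).tendsto' _ _ rfl
  have hD0 : D 0 = 0 := hμ0
  have hDcd : ContDiffAt ℝ 2 D 0 := by
    have : ContDiffAt ℝ 2 (fun x : E => (x, x)) 0 := contDiffAt_id.prodMk contDiffAt_id
    exact ContDiffAt.comp (0 : E) (g := μ) (f := fun x : E => (x, x)) hμ this
  have hD' : HasFDerivAt D ((2 : ℝ) • ContinuousLinearMap.id ℝ E) 0 := by
    have hdiag : HasFDerivAt (fun x : E => (x, x))
        ((ContinuousLinearMap.id ℝ E).prod (ContinuousLinearMap.id ℝ E)) 0 :=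
      (hasFDerivAt_id (0 : E)).prodMk (hasFDerivAt_id (0 : E))
    have hcomp := HasFDerivAt.comp (0 : E) (g := μ) (f := fun x : E => (x, x)) hμ' hdiag
    have hlin : ((2 : ℝ) • ContinuousLinearMap.id ℝ E) =
        ((ContinuousLinearMap.id ℝ E).coprod (ContinuousLinearMap.id ℝ E)).comp
          ((ContinuousLinearMap.id ℝ E).prod (ContinuousLinearMap.id ℝ E)) := by
      ext x
      simp [two_smul]
    rw [hlin]
    exact hcomp
  have hDc : Tendsto D (𝓝 0) (𝓝 0) := hμc.comp tD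
  have hcD : ∀ᶠ x in 𝓝 (0 : E), c (D x) = c x + c x := tD.eventually hadd
  -- Step 3 : halving
  obtain ⟨h, hhcd, hh0, hh', hDh, hhD⟩ := exists_halving D hDcd hD0 hD'
  have hhc : Tendsto h (𝓝 0) (𝓝 0) := by
    have := hhcd.continuousAt.tendsto
    rwa [hh0] at this
  -- Step 4 : `h` commutes with `μ`
  have tfst : Tendsto (fun p : E × E => p.1) (𝓝 ((0 : E), (0 : E))) (𝓝 0) :=
    continuous_fst.tendsto' _ _ rfl
  have tsnd : Tendsto (fun p : E × E => p.2) (𝓝 ((0 : E), (0 : E))) (𝓝 0) :=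
    continuous_snd.tendsto' _ _ rfl
  have tDD : Tendsto (fun p : E × E => (D p.1, D p.2)) (𝓝 ((0 : E), (0 : E)))
      (𝓝 ((0 : E), (0 : E))) := by
    rw [nhds_prod_eq]
    exact ((hDc.comp tfst).prodMk (hDc.comp tsnd)).mono_left (by rw [nhds_prod_eq])
  have thh : Tendsto (fun p : E × E => (h p.1, h p.2)) (𝓝 ((0 : E), (0 : E)))
      (𝓝 ((0 : E), (0 : E))) := by
    rw [nhds_prod_eq]
    exact ((hhc.comp tfst).prodMk (hhc.comp tsnd)).mono_left (by rw [nhds_prod_eq])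
  have hQ : ∀ᶠ p in 𝓝 ((0 : E), (0 : E)), D (μ p) = μ (D p.1, D p.2) := by
    filter_upwards [hadd, hμc.eventually hcD, tDD.eventually hadd, tfst.eventually hcD,
      tsnd.eventually hcD, (hDc.comp hμc).eventually hUe, (hμc.comp tDD).eventually hUe]
      with p a1 a2 a3 a4 a5 a6 a7
    apply hcU a6 a7
    show c (D (μ p)) = c (μ (D p.1, D p.2))
    rw [a2, a1, a3, a4, a5]
    abel
  have hR : ∀ᶠ p in 𝓝 ((0 : E), (0 : E)), h (μ p) = μ (h p.1, h p.2) := by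
    filter_upwards [thh.eventually hQ, tfst.eventually hDh, tsnd.eventually hDh,
      (hμc.comp thh).eventually hhD] with p a1 a2 a3 a4
    rw [a2, a3] at a1
    have a4' : h (D (μ (h p.1, h p.2))) = μ (h p.1, h p.2) := a4
    rw [← a4', a1]
  -- Step 5 : linearisation
  obtain ⟨L, ρ, hρ, hcontr, hlim, hL⟩ := exists_linearization h hhcd hh0 hh'
  obtain ⟨C, ρ₂, hρ₂, hest⟩ := mu_estimate μ hμ h1 h2
  -- uniform radius
  have hball : ∀ᶠ p in 𝓝 ((0 : E), (0 : E)), ‖μ p‖ < ρ := by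
    have : ∀ᶠ z in 𝓝 (0 : E), ‖z‖ < ρ := by
      have := Metric.ball_mem_nhds (0 : E) hρ
      filter_upwards [this] with z hz
      simpa using hz
    exact hμc.eventually this
  obtain ⟨δ₀, hδ₀, hall⟩ := exists_radius_of_eventually_prod
    (hadd.and (hR.and (hball.and (tfst.eventually hUe))))
  set δ : ℝ := min δ₀ (min ρ ρ₂) with hδdef
  have hδ : 0 < δ := lt_min hδ₀ (lt_min hρ hρ₂)
  have hδδ₀ : δ ≤ δ₀ := min_le_left _ _
  have hδρ : δ ≤ ρ := (min_le_right _ _).trans (min_le_left _ _)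
  have hδρ₂ : δ ≤ ρ₂ := (min_le_right _ _).trans (min_le_right _ _)
  have P1 : ∀ x y : E, ‖x‖ < δ → ‖y‖ < δ → c (μ (x, y)) = c x + c y := fun x y hx hy =>
    (hall x y (hx.trans_le hδδ₀) (hy.trans_le hδδ₀)).1
  have P2 : ∀ x y : E, ‖x‖ < δ → ‖y‖ < δ → h (μ (x, y)) = μ (h x, h y) := fun x y hx hy =>
    (hall x y (hx.trans_le hδδ₀) (hy.trans_le hδδ₀)).2.1
  have P4 : ∀ x y : E, ‖x‖ < δ → ‖y‖ < δ → ‖μ (x, y)‖ < ρ := fun x y hx hy =>
    (hall x y (hx.trans_le hδδ₀) (hy.trans_le hδδ₀)).2.2.1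
  have P5 : ∀ x : E, ‖x‖ < δ → x ∈ U := fun x hx =>
    (hall x x (hx.trans_le hδδ₀) (hx.trans_le hδδ₀)).2.2.2
  have P3 : ∀ x y : E, ‖x‖ < δ → ‖y‖ < δ → ‖μ (x, y) - x - y‖ ≤ |C| * ‖x‖ * ‖y‖ :=
    fun x y hx hy => by
      refine (hest x y (hx.trans_le hδρ₂) (hy.trans_le hδρ₂)).trans ?_
      have := le_abs_self C
      gcongr
  -- Step 6 : `L` is additive for `μ`
  have hiter : ∀ x y : E, ‖x‖ < δ → ‖y‖ < δ → ∀ m : ℕ,
      h^[m] (μ (x, y)) = μ (h^[m] x, h^[m] y) := by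
    intro x y hx hy m
    induction m with
    | zero => rfl
    | succ m ih =>
      rw [Function.iterate_succ_apply', Function.iterate_succ_apply', Function.iterate_succ_apply',
        ih]
      exact P2 _ _ (norm_iterate_lt h ρ hcontr x (hx.trans_le hδρ) hx m)
        (norm_iterate_lt h ρ hcontr y (hy.trans_le hδρ) hy m)
  have hLadd : ∀ x y : E, ‖x‖ < δ → ‖y‖ < δ → L (μ (x, y)) = L x + L y := by
    intro x y hx hy
    have l1 := hlim _ (P4 x y hx hy)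
    have l2 := hlim x (hx.trans_le hδρ)
    have l3 := hlim y (hy.trans_le hδρ)
    have l4 := (l1.sub l2).sub l3
    have l5 : Tendsto (fun m : ℕ => (2 : ℝ) ^ m • h^[m] (μ (x, y)) - (2 : ℝ) ^ m • h^[m] x
        - (2 : ℝ) ^ m • h^[m] y) atTop (𝓝 0) := by
      apply squeeze_zero_norm (a := fun m : ℕ => (|C| * ‖x‖ * ‖y‖) * (8 / 9 : ℝ) ^ m)
      · intro m
        rw [hiter x y hx hy m, ← smul_sub, ← smul_sub, norm_smul, norm_pow, Real.norm_two]
        have b1 := norm_iterate_le h ρ hcontr x (hx.trans_le hδρ) m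
        have b2 := norm_iterate_le h ρ hcontr y (hy.trans_le hδρ) m
        have b3 := P3 _ _ (norm_iterate_lt h ρ hcontr x (hx.trans_le hδρ) hx m)
          (norm_iterate_lt h ρ hcontr y (hy.trans_le hδρ) hy m)
        calc (2 : ℝ) ^ m * ‖μ (h^[m] x, h^[m] y) - h^[m] x - h^[m] y‖
            ≤ (2 : ℝ) ^ m * (|C| * ‖h^[m] x‖ * ‖h^[m] y‖) := by gcongr
          _ ≤ (2 : ℝ) ^ m * (|C| * ((2 / 3 : ℝ) ^ m * ‖x‖) * ((2 / 3 : ℝ) ^ m * ‖y‖)) := by gcongr
          _ = (|C| * ‖x‖ * ‖y‖) * ((2 : ℝ) * (2 / 3) * (2 / 3)) ^ m := by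
              rw [mul_pow, mul_pow]; ring
          _ = (|C| * ‖x‖ * ‖y‖) * (8 / 9 : ℝ) ^ m := by norm_num
      · have := tendsto_pow_atTop_nhds_zero_of_lt_one (r := (8 / 9 : ℝ)) (by norm_num) (by norm_num)
        simpa using this.const_mul (|C| * ‖x‖ * ‖y‖)
    have := tendsto_nhds_unique l4 l5
    rw [sub_sub, sub_eq_zero] at this
    exact this
  -- Step 7 : invert `L`
  have hL0 : L 0 = 0 := by
    have l := hlim 0 (by simpa using hρ)
    have hz : ∀ m : ℕ, h^[m] 0 = 0 := fun m => Function.iterate_fixed hh0 m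
    simp only [hz, smul_zero] at l
    exact (tendsto_nhds_unique l tendsto_const_nhds)
  have hLest : ∀ x y : E, ‖x‖ < ρ → ‖y‖ < ρ → ‖L x - L y - (x - y)‖ ≤ 1 / 2 * ‖x - y‖ := by
    intro x y hx hy
    have := hL x (by simpa using hx) y (by simpa using hy)
    simpa using this
  have hLinj : ∀ x y : E, ‖x‖ < ρ → ‖y‖ < ρ → L x = L y → x = y := by
    intro x y hx hy hxy
    have := hLest x y hx hy
    rw [hxy, sub_self, zero_sub, norm_neg] at this
    have h0 : ‖x - y‖ ≤ 0 := by linarith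
    exact sub_eq_zero.mp (norm_le_zero_iff.mp h0)
  have hLle : ∀ x : E, ‖x‖ < ρ → ‖L x‖ ≤ 3 / 2 * ‖x‖ := by
    intro x hx
    have := hLest x 0 hx (by simpa using hρ)
    rw [hL0, sub_zero, sub_zero] at this
    calc ‖L x‖ = ‖(L x - x) + x‖ := by rw [sub_add_cancel]
      _ ≤ ‖L x - x‖ + ‖x‖ := norm_add_le _ _
      _ ≤ 3 / 2 * ‖x‖ := by linarith
  let rinv : (ContinuousLinearMap.id ℝ E).NonlinearRightInverse :=
    { toFun := id
      nnnorm := 1
      bound' := fun y => by simp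
      right_inv' := fun y => rfl }
  set ε : ℝ := δ / 2 with hεdef
  have hε : 0 < ε := by positivity
  have hεδ : ε < δ := by rw [hεdef]; linarith
  have hsub : closedBall (0 : E) ε ⊆ ball 0 ρ :=
    (closedBall_subset_ball hεδ).trans (ball_subset_ball hδρ)
  have hsurj := hL.surjOn_closedBall_of_nonlinearRightInverse rinv hε.le hsub
  set r : ℝ := ε / 2 with hrdef
  have hr : 0 < r := by positivity
  have hex : ∀ u : E, ‖u‖ < r → ∃ x : E, ‖x‖ ≤ ε ∧ L x = u := by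
    intro u hu
    have hmem : u ∈ closedBall (L 0) (((rinv.nnnorm : ℝ)⁻¹ - ((1 / 2 : NNReal) : ℝ)) * ε) := by
      rw [hL0, mem_closedBall, dist_zero_right]
      have : ((rinv.nnnorm : ℝ)⁻¹ - ((1 / 2 : NNReal) : ℝ)) * ε = r := by
        have h1 : (rinv.nnnorm : ℝ) = 1 := rfl
        rw [h1, hrdef]; push_cast; ring
      rw [this]; exact hu.le
    obtain ⟨x, hx, hxu⟩ := hsurj hmem
    exact ⟨x, by simpa using hx, hxu⟩
  let inv : E → E := fun u => if hu : ‖u‖ < r then (hex u hu).choose else 0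
  have hinv1 : ∀ u : E, ‖u‖ < r → ‖inv u‖ ≤ ε := by
    intro u hu
    simp only [inv, dif_pos hu]
    exact (hex u hu).choose_spec.1
  have hinv2 : ∀ u : E, ‖u‖ < r → L (inv u) = u := by
    intro u hu
    simp only [inv, dif_pos hu]
    exact (hex u hu).choose_spec.2
  refine ⟨fun u => c (inv u), r, hr, ?_, ?_, ball 0 (r / 2), ball_mem_nhds _ (by positivity), ?_⟩
  · intro u v hu hv huv
    have hx := (hinv1 u hu).trans_lt hεδ
    have hy := (hinv1 v hv).trans_lt hεδ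
    have hz := (hinv1 _ huv).trans_lt hεδ
    have key : μ (inv u, inv v) = inv (u + v) := by
      apply hLinj _ _ (P4 _ _ hx hy) (hz.trans_le hδρ)
      rw [hLadd _ _ hx hy, hinv2 u hu, hinv2 v hv, hinv2 _ huv]
    show c (inv (u + v)) = c (inv u) + c (inv v)
    rw [← key, P1 _ _ hx hy]
  · intro u hu v hv huv
    have hu' : ‖u‖ < r := by simpa using hu
    have hv' : ‖v‖ < r := by simpa using hv
    have hx := (hinv1 u hu').trans_lt hεδ
    have hy := (hinv1 v hv').trans_lt hεδ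
    have : inv u = inv v := hcU (P5 _ hx) (P5 _ hy) huv
    rw [← hinv2 u hu', ← hinv2 v hv', this]
  · rintro _ ⟨x, hx, rfl⟩
    have hx' : ‖x‖ < r / 2 := by simpa using hx
    have hrρ : r / 2 < ρ := by
      have : r / 2 < δ := by rw [hrdef, hεdef]; linarith
      linarith
    have hxρ : ‖x‖ < ρ := hx'.trans hrρ
    have hLx : ‖L x‖ < r := by
      have := hLle x hxρ
      linarith
    refine ⟨L x, by simpa using hLx, ?_⟩
    show c (inv (L x)) = c x
    congr 1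
    apply hLinj _ _ (((hinv1 _ hLx).trans_lt hεδ).trans_le hδρ) hxρ
    exact hinv2 _ hLx

end Fermat.Agent.S27.LG
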