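import Mathlib
import Fermat.Agent.S27.LG.LocalHom
import Fermat.Agent.S27.LG.Hom
import Fermat.Agent.S27.LG.Lattice

set_option autoImplicit false

open Filter Topology Metric Set

namespace Fermat.Agent.S27.LG

variable {E : Type*} [NormedAddCommGroup E] [NormedSpace ℝ E] [FiniteDimensional ℝ E]

variable {G : Type*} [AddCommGroup G]

/-- **(LG)** main theorem. -/
theorem card_torsion_of_local_group (c : E → G) (μ : E × E → E) (hc0 : c 0 = 0)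
    (hinj : ∃ U ∈ 𝓝 (0 : E), InjOn c U)
    (hμ : ContDiffAt ℝ 2 μ (0, 0)) (hμ0 : μ (0, 0) = 0)
    (hadd : ∀ᶠ p in 𝓝 ((0 : E), (0 : E)), c (μ p) = c p.1 + c p.2)
    (hgen : ∀ V ∈ 𝓝 (0 : E), AddSubgroup.closure (c '' V) = ⊤)
    (hcpt : ∀ V ∈ 𝓝 (0 : E), ∃ T : Finset G, ∀ γ : G, ∃ τ ∈ T, ∃ v ∈ V, γ = τ + c v)
    (n : ℕ) (hn : 0 < n) :
    Nat.card {γ : G // n • γ = 0} = n ^ Module.finrank ℝ E := by
  classical
  obtain ⟨e, r, hr, hloc, heinj, V, hV, hVe⟩ := exists_local_hom c μ hc0 hinj hμ hμ0 hadd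
  obtain ⟨φ, hφ⟩ := exists_hom_of_local e r hr hloc
  have hrange : ∀ γ ∈ c '' V, γ ∈ φ.range := by
    intro γ hγ
    obtain ⟨u, hu, rfl⟩ := hVe hγ
    exact ⟨u, hφ u (by simpa using hu)⟩
  have hsurj : Function.Surjective φ := by
    have h1 : AddSubgroup.closure (c '' V) ≤ φ.range := (AddSubgroup.closure_le _).2 hrange
    rw [hgen V hV] at h1
    intro γ
    exact h1 (AddSubgroup.mem_top γ)
  have he0 : e 0 = 0 := by
    have := hloc 0 0 (by simpa using hr) (by simpa using hr) (by simpa using hr)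
    simpa using this
  have hker : ∀ u : E, ‖u‖ < r → φ u = 0 → u = 0 := by
    intro u hu h0
    rw [hφ u hu, ← he0] at h0
    exact heinj (by simpa using hu) (by simpa using hr) h0
  obtain ⟨T, hT⟩ := hcpt V hV
  choose! lift hlift using hsurj
  obtain ⟨R0, hR0⟩ : ∃ R0 : ℝ, ∀ τ ∈ T, ‖lift τ‖ ≤ R0 := by
    obtain ⟨R0, hR0⟩ := (T.image fun τ => ‖lift τ‖).bddAbove
    exact ⟨R0, fun τ hτ => hR0 (by simpa using ⟨τ, hτ, rfl⟩)⟩
  refine card_torsion_of_hom φ (fun γ => ⟨lift γ, hlift γ⟩) r hr hker (R0 + r) ?_ n hn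
  intro γ
  obtain ⟨τ, hτ, v, hv, rfl⟩ := hT γ
  obtain ⟨u, hu, hcu⟩ := hVe ⟨v, hv, rfl⟩
  have hu' : ‖u‖ < r := by simpa using hu
  refine ⟨lift τ + u, ?_, ?_⟩
  · exact (norm_add_le _ _).trans (add_le_add (hR0 τ hτ) hu'.le)
  · rw [map_add, hlift, hφ u hu', hcu]

end Fermat.Agent.S27.LG
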